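import Fermat.Agent.S27.H550.TangentRing
import Fermat.Agent.S25.H130.GDC
import Fermat.Agent.S25.H265.GDCRig
import Fermat.Agent.S25.H310.LiftBasic
import Fermat.Agent.S25.H490.UnitH0

/-!
# S27 / J-DIM, algebra core (D3): first order deformations of the trivial gluing datum

`K` a field, `(B₀, B₁, B₀₁)` a curve chart, `V` a `K`-module, `K[V] := TrivSqZeroExt K V`.

* `tanGD V φ`, `φ : V ⊗ B₀₁` : the unit gluing datum over `K[V]` with transition unit `1 + φ`;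
* `tanGD_isBC_fst`, `tanGD_rigidifiable`, `tanGD_deg0` : it reduces to the unit datum over `K`,
  is rigidifiable and of degree `0` on all fibres;
* `tanGD_isBC_map` : base change along `K[u] : K[V] → K[V']` is `tanGD V' ((u ⊗ 1) φ)`;
* `exists_isIso_tanGD` : every gluing datum over `K[V]` whose reduction is the unit datum is
  isomorphic to some `tanGD V φ`;
* `tanGD_isIso_iff` : `tanGD V φ ≅ tanGD V φ'` iff `φ - φ' ∈ V ⊗ B₀ + V ⊗ B₁`;
* `tanGD_isIso_iff_mk` : for `V = K`, iff `φ` and `φ'` have the same class in `Ȟ¹(unit)`.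
-/

set_option autoImplicit false
set_option linter.unusedSectionVars false
set_option linter.style.haveILetI false

universe u

open scoped TensorProduct

namespace Fermat.Agent.S27.H550

open Fermat.Agent.S25 Fermat.Agent.S25.H10

noncomputable section

/-! ## Semilinear base change along a surjection with square zero kernel -/

section SemiBC

variable {R R' : Type u} [CommRing R] [CommRing R'] (ρ : R →+* R')
  {N N' : Type u} [AddCommGroup N] [Module R N] [AddCommGroup N'] [Module R' N']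

/-- A base change along a surjective ring map is surjective. -/
theorem semiBC_surjective (hρ : Function.Surjective ρ) (b : N →ₛₗ[ρ] N')
    (hb : IsSemilinearBaseChange ρ b) : Function.Surjective b := by
  letI : Algebra R R' := ρ.toAlgebra
  letI : Module R N' := Module.compHom N' ρ
  haveI : IsScalarTower R R' N' := ⟨fun r r' n => by
    change (ρ r * r') • n = ρ r • (r' • n); rw [mul_smul]⟩
  have hb' : IsBaseChange R' (show N →ₗ[R] N' from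
    { toFun := fun n => b n
      map_add' := fun m n => b.map_add m n
      map_smul' := fun r n => LinearMap.map_smulₛₗ b r n }) := hb
  intro z
  induction z using hb'.inductionOn with
  | zero => exact ⟨0, map_zero b⟩
  | tmul m => exact ⟨m, rfl⟩
  | smul s n ih =>
    obtain ⟨m, rfl⟩ := ih
    obtain ⟨r, rfl⟩ := hρ s
    exact ⟨r • m, LinearMap.map_smulₛₗ b r m⟩
  | add n₁ n₂ h₁ h₂ =>
    obtain ⟨m₁, rfl⟩ := h₁
    obtain ⟨m₂, rfl⟩ := h₂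
    exact ⟨m₁ + m₂, map_add b m₁ m₂⟩

/-- The kernel of a base change along a surjective ring map `ρ` is `ker ρ • ⊤`. -/
theorem semiBC_mem_ker_smul_top (hρ : Function.Surjective ρ) (b : N →ₛₗ[ρ] N')
    (hb : IsSemilinearBaseChange ρ b) {y : N} (hy : b y = 0) :
    y ∈ (RingHom.ker ρ) • (⊤ : Submodule R N) := by
  letI : Algebra R R' := ρ.toAlgebra
  letI : Module R N' := Module.compHom N' ρ
  haveI : IsScalarTower R R' N' := ⟨fun r r' n => by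
    change (ρ r * r') • n = ρ r • (r' • n); rw [mul_smul]⟩
  have hb' : IsBaseChange R' (show N →ₗ[R] N' from
    { toFun := fun n => b n
      map_add' := fun m n => b.map_add m n
      map_smul' := fun r n => LinearMap.map_smulₛₗ b r n }) := hb
  have h1 : (1 : R') ⊗ₜ[R] y = 0 := by
    apply hb'.equiv.injective
    rw [IsBaseChange.equiv_tmul, map_zero, one_smul]
    exact hy
  exact (H310.one_tmul_eq_zero_iff (R := R) (S := R') hρ y).mp h1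

/-- Nakayama: if the reduction of the invertible module `N` along a surjection with square zero
kernel is free with generator `b n`, then `N` is free with generator `n`. -/
theorem semiBC_bijective_toSpanSingleton (hρ : Function.Surjective ρ)
    (hker : RingHom.ker ρ ^ 2 = ⊥) [Module.Invertible R N] (b : N →ₛₗ[ρ] R')
    (hb : IsSemilinearBaseChange ρ b) (n : N) (hn : b n = 1) :
    Function.Bijective (LinearMap.toSpanSingleton R N n) := by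
  apply Module.Invertible.bijective_of_surjective
  rw [← LinearMap.range_eq_top]
  apply H310.eq_top_of_sup_smul_top (RingHom.ker ρ) hker
  rw [eq_top_iff]
  intro x _
  obtain ⟨r, hr⟩ := hρ (b x)
  have hk : b (x - r • n) = 0 := by
    rw [map_sub, LinearMap.map_smulₛₗ, hn, hr, smul_eq_mul, mul_one, sub_self]
  have hmem := semiBC_mem_ker_smul_top ρ hρ b hb hk
  have hx : x = r • n + (x - r • n) := by abel
  rw [hx]
  exact Submodule.add_mem_sup ⟨r, by simp [LinearMap.toSpanSingleton_apply]⟩ hmem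

end SemiBC

/-! ## Twists of the unit datum and base change -/

section Twist

variable {K : Type u} [Field K] {B₀ B₁ B₀₁ : Type u} [CommRing B₀] [CommRing B₁] [CommRing B₀₁]
  [Algebra K B₀] [Algebra K B₁] [Algebra K B₀₁] [Algebra B₀ B₀₁] [Algebra B₁ B₀₁]
  [IsScalarTower K B₀ B₀₁] [IsScalarTower K B₁ B₀₁]
  {x : B₀} {y : B₁} {e : B₁ →ₐ[K] K}

/-- Twists commute with base change. -/
theorem gdTwist_isBC {A A' : Type u} [CommRing A] [Algebra K A] [CommRing A'] [Algebra K A']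
    (ψ : A →ₐ[K] A') {G : CurveGD K B₀ B₁ B₀₁ A} {G' : CurveGD K B₀ B₁ B₀₁ A'}
    (h : CurveGD.IsBC ψ G G') (u : (A ⊗[K] B₀₁)ˣ) (u' : (A' ⊗[K] B₀₁)ˣ)
    (hu : tensorMapLeft K ψ B₀₁ (u : A ⊗[K] B₀₁) = (u' : A' ⊗[K] B₀₁)) :
    CurveGD.IsBC ψ (gdTwist G u) (gdTwist G' u') := by
  obtain ⟨bc⟩ := h
  exact
    ⟨{ b₀ := bc.b₀
       b₁ := bc.b₁
       b₀₁ := bc.b₀₁
       comm₀ := bc.comm₀
       comm₁ := fun (s : G.N₁) => by
        show bc.b₀₁ ((u : A ⊗[K] B₀₁) • G.r₁ s : G.N₀₁) =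
          ((u' : A' ⊗[K] B₀₁) • G'.r₁ (bc.b₁ s) : G'.N₀₁)
        rw [bc.b₀₁.map_smulₛₗ, bc.comm₁, hu]
       isBaseChange₀ := bc.isBaseChange₀
       isBaseChange₁ := bc.isBaseChange₁
       isBaseChange₀₁ := bc.isBaseChange₀₁ }⟩

/-- The degree of the unit datum is zero. -/
theorem degree_unit (K' : Type u) [Field K'] (R₀ R₁ R₀₁ : Type u) [CommRing R₀] [CommRing R₁]
    [CommRing R₀₁] [Algebra K' R₀] [Algebra K' R₁] [Algebra K' R₀₁] [Algebra R₀ R₀₁]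
    [Algebra R₁ R₀₁] [IsScalarTower K' R₀ R₀₁] [IsScalarTower K' R₁ R₀₁] :
    (GlueDatum.unit K' R₀ R₁ R₀₁).degree = 0 := by
  unfold GlueDatum.degree
  exact sub_self _

end Twist

/-! ## The tangent gluing data -/

section Tan

variable {K : Type u} [Field K] {B₀ B₁ B₀₁ : Type u} [CommRing B₀] [CommRing B₁] [CommRing B₀₁]
  [Algebra K B₀] [Algebra K B₁] [Algebra K B₀₁] [Algebra B₀ B₀₁] [Algebra B₁ B₀₁]
  [IsScalarTower K B₀ B₀₁] [IsScalarTower K B₁ B₀₁]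
  {x : B₀} {y : B₁} {e : B₁ →ₐ[K] K}
  {V : Type u} [AddCommGroup V] [Module K V] [Module Kᵐᵒᵖ V] [IsCentralScalar K V]
  {V' : Type u} [AddCommGroup V'] [Module K V'] [Module Kᵐᵒᵖ V'] [IsCentralScalar K V']

variable (K B₀ B₁ B₀₁) in
/-- The unit gluing datum over `K[V]`. -/
abbrev unitGD (A : Type u) [CommRing A] [Algebra K A] : CurveGD K B₀ B₁ B₀₁ A :=
  GlueDatum.unit A (A ⊗[K] B₀) (A ⊗[K] B₁) (A ⊗[K] B₀₁)

variable (K B₀ B₁ B₀₁ V) in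
/-- The gluing datum over `K[V]` with trivial charts and transition unit `1 + φ`. -/
def tanGD (φ : V ⊗[K] B₀₁) : CurveGD K B₀ B₁ B₀₁ (TrivSqZeroExt K V) :=
  gdTwist (unitGD K B₀ B₁ B₀₁ (TrivSqZeroExt K V)) (oneAddJ K V B₀₁ φ)

/-- Base change of `tanGD` along `K[u] : K[V] → K[V']`. -/
theorem tanGD_isBC_map (u : V →ₗ[K] V') (φ : V ⊗[K] B₀₁) :
    CurveGD.IsBC (TrivSqZeroExt.map u) (tanGD K B₀ B₁ B₀₁ V φ)
      (tanGD K B₀ B₁ B₀₁ V' (LinearMap.rTensor B₀₁ u φ)) :=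
  gdTwist_isBC _ (H130.unit_isBC _) _ _ (tensorMapLeft_map_oneAddJ u φ)

/-- The reduction of `tanGD` is the unit datum. -/
theorem tanGD_isBC_fst (φ : V ⊗[K] B₀₁) :
    CurveGD.IsBC (fstA K V) (tanGD K B₀ B₁ B₀₁ V φ) (unitGD K B₀ B₁ B₀₁ K) := by
  have h := gdTwist_isBC (fstA K V) (H130.unit_isBC (B₀ := B₀) (B₁ := B₁) (B₀₁ := B₀₁)
    (fstA K V)) (oneAddJ K V B₀₁ φ) 1 (by
      rw [Units.val_one]
      exact fstB_oneAddJ φ)
  exact H265.curveGD_isBC_of_isIso_right h (H130.gdTwist_one _)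

/-- `tanGD 0` is the unit datum. -/
theorem tanGD_zero_isIso :
    (tanGD K B₀ B₁ B₀₁ V 0).IsIso (unitGD K B₀ B₁ B₀₁ (TrivSqZeroExt K V)) := by
  have h : oneAddJ K V B₀₁ (0 : V ⊗[K] B₀₁) = 1 := by
    apply Units.ext
    rw [oneAddJ_val, map_zero, add_zero, Units.val_one]
  unfold tanGD
  rw [h]
  exact H130.gdTwist_one _

/-- `tanGD` is rigidifiable. -/
theorem tanGD_rigidifiable (e : B₁ →ₐ[K] K) (φ : V ⊗[K] B₀₁) :
    (tanGD K B₀ B₁ B₀₁ V φ).Rigidifiable e :=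
  ⟨H130.ringHomSemilinear (epsHom e (TrivSqZeroExt K V)).toRingHom,
    H130.ringHomSemilinear_isBC _⟩

/-- Every `K`-algebra map from `K[V]` to a field factors through `K`. -/
theorem algHom_eq_comp_fstA {K' : Type u} [Field K'] [Algebra K K']
    (ψ : TrivSqZeroExt K V →ₐ[K] K') : ψ = (Algebra.ofId K K').comp (fstA K V) := by
  have h0 : ∀ v : V, ψ (TrivSqZeroExt.inr v) = 0 := fun v => by
    have h : ψ (TrivSqZeroExt.inr v) ^ 2 = 0 := by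
      rw [← map_pow, pow_two, TrivSqZeroExt.inr_mul_inr, map_zero]
    exact eq_zero_of_pow_eq_zero h
  ext v
  show ψ (TrivSqZeroExt.inr v) = Algebra.ofId K K' (fstA K V (TrivSqZeroExt.inr v))
  rw [h0]
  simp [fstA]

/-- `tanGD` has degree zero on all fibres. -/
theorem tanGD_deg0 (φ : V ⊗[K] B₀₁) : (tanGD K B₀ B₁ B₀₁ V φ).Deg0 := by
  intro K' _ _ ψ G' hbc
  have h1 : CurveGD.IsBC ((Algebra.ofId K K').comp (fstA K V)) (tanGD K B₀ B₁ B₀₁ V φ)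
      (unitGD K B₀ B₁ B₀₁ K') :=
    H265.curveGD_isBC_comp (tanGD_isBC_fst φ) (H130.unit_isBC _)
  rw [← algHom_eq_comp_fstA ψ] at h1
  rw [H130.degree_eq_of_isIso (H265.curveGD_isIso_of_isBC hbc h1)]
  exact degree_unit _ _ _ _

/-- **Classification.** Every gluing datum over `K[V]` whose reduction is the unit datum is
isomorphic to `tanGD V φ` for some `φ : V ⊗ B₀₁`. -/
theorem exists_isIso_tanGD (G : CurveGD K B₀ B₁ B₀₁ (TrivSqZeroExt K V))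
    (h : CurveGD.IsBC (fstA K V) G (unitGD K B₀ B₁ B₀₁ K)) :
    ∃ φ : V ⊗[K] B₀₁, (tanGD K B₀ B₁ B₀₁ V φ).IsIso G := by
  obtain ⟨m⟩ := h
  have hs₀ : Function.Surjective (tensorMapLeft K (fstA K V) B₀) :=
    fstB_surjective (K := K) (V := V) (B := B₀)
  have hs₁ : Function.Surjective (tensorMapLeft K (fstA K V) B₁) :=
    fstB_surjective (K := K) (V := V) (B := B₁)
  have hk₀ : RingHom.ker (tensorMapLeft K (fstA K V) B₀) ^ 2 = ⊥ :=
    ker_fstB_sq (K := K) (V := V) (B := B₀)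
  have hk₁ : RingHom.ker (tensorMapLeft K (fstA K V) B₁) ^ 2 = ⊥ :=
    ker_fstB_sq (K := K) (V := V) (B := B₁)
  obtain ⟨n₀, hn₀⟩ := semiBC_surjective _ hs₀ m.b₀ m.isBaseChange₀ (1 : K ⊗[K] B₀)
  obtain ⟨n₁, hn₁⟩ := semiBC_surjective _ hs₁ m.b₁ m.isBaseChange₁ (1 : K ⊗[K] B₁)
  haveI := G.invertible₀
  haveI := G.invertible₁
  have hbij₀ := semiBC_bijective_toSpanSingleton _ hs₀ hk₀ m.b₀ m.isBaseChange₀ n₀ hn₀
  have hbij₁ := semiBC_bijective_toSpanSingleton _ hs₁ hk₁ m.b₁ m.isBaseChange₁ n₁ hn₁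
  have hgen : ∀ z : G.N₀₁, ∃ c : TrivSqZeroExt K V ⊗[K] B₀₁, z = c • G.r₀ n₀ := by
    intro z
    induction z using G.isBaseChange₀.inductionOn with
    | zero => exact ⟨0, (zero_smul (TrivSqZeroExt K V ⊗[K] B₀₁) (G.r₀ n₀)).symm⟩
    | tmul n =>
      obtain ⟨t, rfl⟩ := hbij₀.2 n
      exact ⟨algebraMap _ _ t, by
        rw [LinearMap.toSpanSingleton_apply, map_smul, algebraMap_smul]⟩
    | smul s z ih =>
      obtain ⟨c, rfl⟩ := ih
      exact ⟨s * c, by rw [mul_smul]⟩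
    | add z₁ z₂ h₁ h₂ =>
      obtain ⟨c₁, rfl⟩ := h₁
      obtain ⟨c₂, rfl⟩ := h₂
      exact ⟨c₁ + c₂, by rw [add_smul]⟩
  obtain ⟨c, hc⟩ := hgen (G.r₁ n₁)
  have hc1 : fstB K V B₀₁ c = 1 := by
    have h1 : m.b₀₁ (G.r₁ n₁) = (1 : K ⊗[K] B₀₁) := by
      rw [m.comm₁, hn₁]
      exact map_one (algebraMap (K ⊗[K] B₁) (K ⊗[K] B₀₁))
    have h0 : m.b₀₁ (G.r₀ n₀) = (1 : K ⊗[K] B₀₁) := by
      rw [m.comm₀, hn₀]
      exact map_one (algebraMap (K ⊗[K] B₀) (K ⊗[K] B₀₁))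
    rw [hc, LinearMap.map_smulₛₗ, h0] at h1
    rw [← h1]
    exact (mul_one _).symm
  obtain ⟨φ, rfl⟩ := exists_eq_oneAddJ hc1
  refine ⟨φ, ?_⟩
  let f : GDHom (tanGD K B₀ B₁ B₀₁ V φ) G :=
    { f₀ := LinearMap.toSpanSingleton (TrivSqZeroExt K V ⊗[K] B₀) G.N₀ n₀
      f₁ := LinearMap.toSpanSingleton (TrivSqZeroExt K V ⊗[K] B₁) G.N₁ n₁
      f₀₁ := LinearMap.toSpanSingleton (TrivSqZeroExt K V ⊗[K] B₀₁) G.N₀₁ (G.r₀ n₀)
      comm₀ := fun (s : TrivSqZeroExt K V ⊗[K] B₀) => by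
        show algebraMap (TrivSqZeroExt K V ⊗[K] B₀) (TrivSqZeroExt K V ⊗[K] B₀₁) s • G.r₀ n₀ =
          G.r₀ (s • n₀)
        rw [map_smul, algebraMap_smul]
      comm₁ := fun (s : TrivSqZeroExt K V ⊗[K] B₁) => by
        show (((oneAddJ K V B₀₁ φ : (TrivSqZeroExt K V ⊗[K] B₀₁)ˣ) :
            TrivSqZeroExt K V ⊗[K] B₀₁) *
            algebraMap (TrivSqZeroExt K V ⊗[K] B₁) (TrivSqZeroExt K V ⊗[K] B₀₁) s) • G.r₀ n₀ =
          G.r₁ (s • n₁)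
        rw [map_smul, hc, mul_comm, mul_smul, algebraMap_smul] }
  exact H130.isIso_of_bijective f (H130.bijective_of_charts f hbij₀ hbij₁)

/-! ## Isomorphisms between tangent gluing data -/

theorem one_add_jB_mul {B : Type u} [CommRing B] [Algebra K B] (a b : V ⊗[K] B) :
    (1 + jB K V B a) * (1 + jB K V B b) = 1 + jB K V B (a + b) := by
  have h := jB_mul_jB a b
  rw [map_add]
  linear_combination h

theorem oneAddJ_mul {B : Type u} [CommRing B] [Algebra K B] (a b : V ⊗[K] B) :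
    oneAddJ K V B a * oneAddJ K V B b = oneAddJ K V B (a + b) :=
  Units.ext (one_add_jB_mul a b)

theorem inl_tmul_one_mul_jB {B : Type u} [CommRing B] [Algebra K B] (a : K) (ψ : V ⊗[K] B) :
    ((TrivSqZeroExt.inl a : TrivSqZeroExt K V) ⊗ₜ[K] (1 : B)) * jB K V B ψ =
      jB K V B (a • ψ) := by
  rw [← algebraMap_mul_jB]
  rfl

theorem algebraMap_oneAddJ {B B' : Type u} [CommRing B] [Algebra K B] [CommRing B']
    [Algebra K B'] [Algebra B B'] [IsScalarTower K B B'] (a : V ⊗[K] B) :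
    algebraMap (TrivSqZeroExt K V ⊗[K] B) (TrivSqZeroExt K V ⊗[K] B')
        (oneAddJ K V B a : (TrivSqZeroExt K V ⊗[K] B)ˣ) =
      (oneAddJ K V B' (iotaV V B B' a) : (TrivSqZeroExt K V ⊗[K] B')ˣ) := by
  rw [oneAddJ_val, oneAddJ_val, map_add, map_one, algebraMap_jB]

/-- Cohomologous cocycles give isomorphic gluing data. -/
theorem tanGD_isIso_of_sub_mem {φ φ' : V ⊗[K] B₀₁}
    (h : φ - φ' ∈ LinearMap.range (iotaV V B₀ B₀₁) ⊔ LinearMap.range (iotaV V B₁ B₀₁)) :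
    (tanGD K B₀ B₁ B₀₁ V φ).IsIso (tanGD K B₀ B₁ B₀₁ V φ') := by
  obtain ⟨_, ⟨s₀, rfl⟩, _, ⟨s₁, rfl⟩, hs⟩ := Submodule.mem_sup.mp h
  have key : algebraMap (TrivSqZeroExt K V ⊗[K] B₀) (TrivSqZeroExt K V ⊗[K] B₀₁)
        (oneAddJ K V B₀ (-s₀) : (TrivSqZeroExt K V ⊗[K] B₀)ˣ) *
        (oneAddJ K V B₀₁ φ : (TrivSqZeroExt K V ⊗[K] B₀₁)ˣ) =
      (oneAddJ K V B₀₁ φ' : (TrivSqZeroExt K V ⊗[K] B₀₁)ˣ) *
        algebraMap (TrivSqZeroExt K V ⊗[K] B₁) (TrivSqZeroExt K V ⊗[K] B₀₁)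
          (oneAddJ K V B₁ s₁ : (TrivSqZeroExt K V ⊗[K] B₁)ˣ) := by
    rw [algebraMap_oneAddJ, algebraMap_oneAddJ, ← Units.val_mul, ← Units.val_mul, oneAddJ_mul,
      oneAddJ_mul]
    have hφ : φ = iotaV V B₀ B₀₁ s₀ + iotaV V B₁ B₀₁ s₁ + φ' := by rw [hs]; abel
    congr 2
    rw [map_neg, hφ]
    abel
  exact
    ⟨{ e₀ := unitSMulEquiv (oneAddJ K V B₀ (-s₀)) (TrivSqZeroExt K V ⊗[K] B₀)
       e₁ := unitSMulEquiv (oneAddJ K V B₁ s₁) (TrivSqZeroExt K V ⊗[K] B₁)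
       e₀₁ := unitSMulEquiv (Units.map
          (algebraMap (TrivSqZeroExt K V ⊗[K] B₀) (TrivSqZeroExt K V ⊗[K] B₀₁)).toMonoidHom
            (oneAddJ K V B₀ (-s₀))) (TrivSqZeroExt K V ⊗[K] B₀₁)
       comm₀ := fun (s : TrivSqZeroExt K V ⊗[K] B₀) => by
        show algebraMap (TrivSqZeroExt K V ⊗[K] B₀) (TrivSqZeroExt K V ⊗[K] B₀₁)
            (oneAddJ K V B₀ (-s₀) : (TrivSqZeroExt K V ⊗[K] B₀)ˣ) *
            algebraMap (TrivSqZeroExt K V ⊗[K] B₀) (TrivSqZeroExt K V ⊗[K] B₀₁) s =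
          algebraMap (TrivSqZeroExt K V ⊗[K] B₀) (TrivSqZeroExt K V ⊗[K] B₀₁)
            ((oneAddJ K V B₀ (-s₀) : (TrivSqZeroExt K V ⊗[K] B₀)ˣ) * s)
        rw [map_mul]
       comm₁ := fun (s : TrivSqZeroExt K V ⊗[K] B₁) => by
        show algebraMap (TrivSqZeroExt K V ⊗[K] B₀) (TrivSqZeroExt K V ⊗[K] B₀₁)
            (oneAddJ K V B₀ (-s₀) : (TrivSqZeroExt K V ⊗[K] B₀)ˣ) *
            ((oneAddJ K V B₀₁ φ : (TrivSqZeroExt K V ⊗[K] B₀₁)ˣ) *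
              algebraMap (TrivSqZeroExt K V ⊗[K] B₁) (TrivSqZeroExt K V ⊗[K] B₀₁) s) =
          (oneAddJ K V B₀₁ φ' : (TrivSqZeroExt K V ⊗[K] B₀₁)ˣ) *
            algebraMap (TrivSqZeroExt K V ⊗[K] B₁) (TrivSqZeroExt K V ⊗[K] B₀₁)
              ((oneAddJ K V B₁ s₁ : (TrivSqZeroExt K V ⊗[K] B₁)ˣ) * s)
        rw [map_mul, ← mul_assoc, key, mul_assoc] }⟩

theorem zero_ne_one_tensor (hC : IsCurveChart K B₀ B₁ B₀₁ x y e) :
    (0 : K ⊗[K] B₀) ≠ 1 := by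
  haveI := hC.isDomain₀
  intro h
  have h2 := congrArg (Algebra.TensorProduct.lid K B₀) h
  rw [map_zero, map_one] at h2
  exact zero_ne_one h2

/-- Isomorphic tangent gluing data have cohomologous cocycles. -/
theorem sub_mem_of_tanGD_isIso [IsAlgClosed K] (hC : IsCurveChart K B₀ B₁ B₀₁ x y e)
    {φ φ' : V ⊗[K] B₀₁}
    (h : (tanGD K B₀ B₁ B₀₁ V φ).IsIso (tanGD K B₀ B₁ B₀₁ V φ')) :
    φ - φ' ∈ LinearMap.range (iotaV V B₀ B₀₁) ⊔ LinearMap.range (iotaV V B₁ B₀₁) := by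
  obtain ⟨E⟩ := h
  -- the three maps, as self maps of the rings
  let g₀ : (TrivSqZeroExt K V ⊗[K] B₀) ≃ₗ[TrivSqZeroExt K V ⊗[K] B₀]
      (TrivSqZeroExt K V ⊗[K] B₀) := E.e₀
  let g₁ : (TrivSqZeroExt K V ⊗[K] B₁) ≃ₗ[TrivSqZeroExt K V ⊗[K] B₁]
      (TrivSqZeroExt K V ⊗[K] B₁) := E.e₁
  let g₀₁ : (TrivSqZeroExt K V ⊗[K] B₀₁) ≃ₗ[TrivSqZeroExt K V ⊗[K] B₀₁]
      (TrivSqZeroExt K V ⊗[K] B₀₁) := E.e₀₁
  set c₀ : TrivSqZeroExt K V ⊗[K] B₀ := g₀ 1 with hc₀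
  set c₁ : TrivSqZeroExt K V ⊗[K] B₁ := g₁ 1 with hc₁
  have hcomm₀ : g₀₁ (algebraMap (TrivSqZeroExt K V ⊗[K] B₀) (TrivSqZeroExt K V ⊗[K] B₀₁) 1) =
      algebraMap (TrivSqZeroExt K V ⊗[K] B₀) (TrivSqZeroExt K V ⊗[K] B₀₁) c₀ :=
    E.comm₀ (1 : TrivSqZeroExt K V ⊗[K] B₀)
  have hcomm₁ : g₀₁ (((oneAddJ K V B₀₁ φ : (TrivSqZeroExt K V ⊗[K] B₀₁)ˣ) :
          TrivSqZeroExt K V ⊗[K] B₀₁) •
        algebraMap (TrivSqZeroExt K V ⊗[K] B₁) (TrivSqZeroExt K V ⊗[K] B₀₁) 1) =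
      ((oneAddJ K V B₀₁ φ' : (TrivSqZeroExt K V ⊗[K] B₀₁)ˣ) : TrivSqZeroExt K V ⊗[K] B₀₁) *
        algebraMap (TrivSqZeroExt K V ⊗[K] B₁) (TrivSqZeroExt K V ⊗[K] B₀₁) c₁ :=
    E.comm₁ (1 : TrivSqZeroExt K V ⊗[K] B₁)
  rw [map_one] at hcomm₀
  rw [map_one, map_smul, hcomm₀, smul_eq_mul, oneAddJ_val, oneAddJ_val] at hcomm₁
  -- the constant term
  have hfst : algebraMap (K ⊗[K] B₀) (K ⊗[K] B₀₁) (fstB K V B₀ c₀) =
      algebraMap (K ⊗[K] B₁) (K ⊗[K] B₀₁) (fstB K V B₁ c₁) := by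
    have h2 := congrArg (fstB K V B₀₁) hcomm₁
    rw [map_mul, map_mul, map_add, map_add, map_one, fstB_jB, fstB_jB, add_zero, one_mul,
      one_mul, fstB_algebraMap, fstB_algebraMap] at h2
    exact h2
  obtain ⟨a, ha₀, ha₁⟩ := H490.exists_eq_tmul_one K hC _ _ hfst
  have ha : a ≠ 0 := by
    rintro rfl
    obtain ⟨d, hd⟩ := g₀.surjective 1
    have h3 : d * c₀ = 1 := by
      rw [← hd, hc₀, ← smul_eq_mul, ← map_smul, smul_eq_mul, mul_one]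
    have h4 := congrArg (fstB K V B₀) h3
    rw [map_mul, ha₀, TensorProduct.zero_tmul, mul_zero, map_one] at h4
    exact zero_ne_one_tensor hC h4
  -- decompose
  have hd₀ : c₀ = (TrivSqZeroExt.inl a : TrivSqZeroExt K V) ⊗ₜ[K] (1 : B₀) +
      jB K V B₀ (sndB K V B₀ c₀) := by
    conv_lhs => rw [eq_inlB_add_jB c₀, ha₀, inlB_tmul]
  have hd₁ : c₁ = (TrivSqZeroExt.inl a : TrivSqZeroExt K V) ⊗ₜ[K] (1 : B₁) +
      jB K V B₁ (sndB K V B₁ c₁) := by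
    conv_lhs => rw [eq_inlB_add_jB c₁, ha₁, inlB_tmul]
  rw [hd₀, hd₁, map_add, map_add, algebraMap_tmul', algebraMap_tmul', map_one, map_one,
    algebraMap_jB, algebraMap_jB] at hcomm₁
  set s₀ := sndB K V B₀ c₀
  set s₁ := sndB K V B₁ c₁
  have h1 := inl_tmul_one_mul_jB (B := B₀₁) a φ
  have h2 := inl_tmul_one_mul_jB (B := B₀₁) a φ'
  have h3 := jB_mul_jB φ (iotaV V B₀ B₀₁ s₀)
  have h4 := jB_mul_jB φ' (iotaV V B₁ B₀₁ s₁)
  have h5 : jB K V B₀₁ (iotaV V B₀ B₀₁ s₀ + a • φ) = jB K V B₀₁ (iotaV V B₁ B₀₁ s₁ + a • φ') := by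
    rw [map_add, map_add]
    linear_combination hcomm₁ - h1 + h2 - h3 + h4
  have h6 := jB_injective h5
  have h7 : φ - φ' = iotaV V B₀ B₀₁ (-(a⁻¹ • s₀)) + iotaV V B₁ B₀₁ (a⁻¹ • s₁) := by
    have h8 : a • (φ - φ') = iotaV V B₁ B₀₁ s₁ - iotaV V B₀ B₀₁ s₀ := by
      rw [smul_sub, sub_eq_sub_iff_add_eq_add, add_comm (a • φ), h6, add_comm]
    rw [map_neg, map_smul, map_smul, ← sub_eq_neg_add, ← smul_sub, ← h8, smul_smul,
      inv_mul_cancel₀ ha, one_smul]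
  rw [h7]
  exact Submodule.add_mem_sup ⟨_, rfl⟩ ⟨_, rfl⟩

/-- **Isomorphism classes of tangent gluing data.** -/
theorem tanGD_isIso_iff [IsAlgClosed K] (hC : IsCurveChart K B₀ B₁ B₀₁ x y e)
    (φ φ' : V ⊗[K] B₀₁) :
    (tanGD K B₀ B₁ B₀₁ V φ).IsIso (tanGD K B₀ B₁ B₀₁ V φ') ↔
      φ - φ' ∈ LinearMap.range (iotaV V B₀ B₀₁) ⊔ LinearMap.range (iotaV V B₁ B₀₁) :=
  ⟨sub_mem_of_tanGD_isIso hC, tanGD_isIso_of_sub_mem⟩

end Tan

/-! ## Dual numbers: classes in `Ȟ¹(unit)` -/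

section Dual

variable {K : Type u} [Field K] {B₀ B₁ B₀₁ : Type u} [CommRing B₀] [CommRing B₁] [CommRing B₀₁]
  [Algebra K B₀] [Algebra K B₁] [Algebra K B₀₁] [Algebra B₀ B₀₁] [Algebra B₁ B₀₁]
  [IsScalarTower K B₀ B₀₁] [IsScalarTower K B₁ B₀₁]
  {x : B₀} {y : B₁} {e : B₁ →ₐ[K] K}

theorem iotaV_eq_algebraMap {B B' : Type u} [CommRing B] [Algebra K B] [CommRing B']
    [Algebra K B'] [Algebra B B'] [IsScalarTower K B B'] (z : K ⊗[K] B) :
    iotaV K B B' z = algebraMap (K ⊗[K] B) (K ⊗[K] B') z := by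
  induction z using TensorProduct.induction_on with
  | zero => simp
  | tmul c b => rw [iotaV_tmul, H265.algebraMap_tensor_apply_tmul]
  | add z w hz hw => rw [map_add, map_add, hz, hw]

/-- The Čech coboundaries of the unit datum over `K` are `K ⊗ B₀ + K ⊗ B₁`. -/
theorem mem_range_cech_unit_iff (z : K ⊗[K] B₀₁) :
    z ∈ LinearMap.range (unitGD K B₀ B₁ B₀₁ K).cech ↔
      z ∈ LinearMap.range (iotaV K B₀ B₀₁) ⊔ LinearMap.range (iotaV K B₁ B₀₁) := by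
  have key : ∀ (s₀ : K ⊗[K] B₀) (s₁ : K ⊗[K] B₁),
      (unitGD K B₀ B₁ B₀₁ K).cech (s₀, s₁) = iotaV K B₀ B₀₁ s₀ + iotaV K B₁ B₀₁ (-s₁) := by
    intro s₀ s₁
    rw [iotaV_eq_algebraMap, iotaV_eq_algebraMap, map_neg]
    rfl
  constructor
  · rintro ⟨p, rfl⟩
    have h := key p.1 p.2
    rw [Prod.mk.eta] at h
    rw [h]
    exact Submodule.add_mem_sup ⟨_, rfl⟩ ⟨_, rfl⟩
  · intro hz
    obtain ⟨_, ⟨s₀, rfl⟩, _, ⟨s₁, rfl⟩, rfl⟩ := Submodule.mem_sup.mp hz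
    refine ⟨(s₀, -s₁), ?_⟩
    rw [key, neg_neg]

variable (K B₀ B₁ B₀₁) in
/-- The class of a cocycle in `Ȟ¹` of the unit datum over `K`. -/
def h1Class : (K ⊗[K] B₀₁) →ₗ[K] (unitGD K B₀ B₁ B₀₁ K).H1 :=
  Submodule.mkQ (LinearMap.range (unitGD K B₀ B₁ B₀₁ K).cech)

theorem h1Class_surjective : Function.Surjective (h1Class K B₀ B₁ B₀₁) :=
  (LinearMap.range (unitGD K B₀ B₁ B₀₁ K).cech).mkQ_surjective

theorem h1Class_eq_iff (φ φ' : K ⊗[K] B₀₁) :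
    h1Class K B₀ B₁ B₀₁ φ = h1Class K B₀ B₁ B₀₁ φ' ↔
      φ - φ' ∈ LinearMap.range (iotaV K B₀ B₀₁) ⊔ LinearMap.range (iotaV K B₁ B₀₁) := by
  rw [← mem_range_cech_unit_iff]
  exact Submodule.Quotient.eq _

/-- **Tangent gluing data over the dual numbers are classified by `Ȟ¹(unit)`.** -/
theorem tanGD_isIso_iff_h1Class [IsAlgClosed K] (hC : IsCurveChart K B₀ B₁ B₀₁ x y e)
    (φ φ' : K ⊗[K] B₀₁) :
    (tanGD K B₀ B₁ B₀₁ K φ).IsIso (tanGD K B₀ B₁ B₀₁ K φ') ↔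
      h1Class K B₀ B₁ B₀₁ φ = h1Class K B₀ B₁ B₀₁ φ' := by
  rw [h1Class_eq_iff]
  exact tanGD_isIso_iff hC φ φ'

variable {W : Type u} [AddCommGroup W] [Module K W] [Module Kᵐᵒᵖ W] [IsCentralScalar K W]

variable (B₀ B₁) in
/-- The Kodaira–Spencer map of the cocycle `h : W ⊗ B₀₁` : a tangent vector `δ : W → K` goes to
the class of `(δ ⊗ 1) h`. -/
def ksMap (h : W ⊗[K] B₀₁) : Module.Dual K W →ₗ[K] (unitGD K B₀ B₁ B₀₁ K).H1 where
  toFun δ := h1Class K B₀ B₁ B₀₁ (LinearMap.rTensor B₀₁ δ h)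
  map_add' δ δ' := by rw [LinearMap.rTensor_add, LinearMap.add_apply, map_add]
  map_smul' c δ := by
    rw [LinearMap.rTensor_smul, LinearMap.smul_apply, map_smul, RingHom.id_apply]

@[simp] theorem ksMap_apply (h : W ⊗[K] B₀₁) (δ : Module.Dual K W) :
    ksMap B₀ B₁ h δ = h1Class K B₀ B₁ B₀₁ (LinearMap.rTensor B₀₁ δ h) := rfl

/-- **D3/D4, packaged.**  Let `Gu` be a gluing datum over `K[W]` with trivial reduction, which
is *universal* for first order deformations of the unit datum: a tangent vector `δ : W → K` is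
determined by the base change of `Gu` along `K[δ] : K[W] → K[ε]`, and every rigidifiable
gluing datum of degree zero over `K[ε]` with trivial reduction is such a base change.  Then the
Kodaira–Spencer map `W^* → Ȟ¹(unit)` is bijective. -/
theorem exists_ksMap_bijective [IsAlgClosed K] (hC : IsCurveChart K B₀ B₁ B₀₁ x y e)
    (Gu : CurveGD K B₀ B₁ B₀₁ (TrivSqZeroExt K W))
    (h0 : CurveGD.IsBC (fstA K W) Gu (unitGD K B₀ B₁ B₀₁ K))
    (hinj : ∀ (δ : W →ₗ[K] K) (G : CurveGD K B₀ B₁ B₀₁ (TrivSqZeroExt K K)),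
      CurveGD.IsBC (TrivSqZeroExt.map δ) Gu G →
        G.IsIso (unitGD K B₀ B₁ B₀₁ (TrivSqZeroExt K K)) → δ = 0)
    (hsurj : ∀ G : CurveGD K B₀ B₁ B₀₁ (TrivSqZeroExt K K),
      CurveGD.IsBC (fstA K K) G (unitGD K B₀ B₁ B₀₁ K) → G.Rigidifiable e → G.Deg0 →
        ∃ δ : W →ₗ[K] K, CurveGD.IsBC (TrivSqZeroExt.map δ) Gu G) :
    ∃ h : W ⊗[K] B₀₁, (tanGD K B₀ B₁ B₀₁ W h).IsIso Gu ∧
      Function.Bijective (ksMap B₀ B₁ h) := by
  obtain ⟨h, hiso⟩ := exists_isIso_tanGD Gu h0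
  have hbc : ∀ δ : W →ₗ[K] K, CurveGD.IsBC (TrivSqZeroExt.map δ) Gu
      (tanGD K B₀ B₁ B₀₁ K (LinearMap.rTensor B₀₁ δ h)) := fun δ =>
    H265.curveGD_isBC_of_isIso_left hiso (tanGD_isBC_map δ h)
  refine ⟨h, hiso, ?_, ?_⟩
  · rw [← LinearMap.ker_eq_bot, LinearMap.ker_eq_bot']
    intro δ hδ
    have h1 : h1Class K B₀ B₁ B₀₁ (LinearMap.rTensor B₀₁ δ h) = h1Class K B₀ B₁ B₀₁ 0 := by
      rw [map_zero]
      exact hδ
    have h2 := (tanGD_isIso_iff_h1Class hC _ _).mpr h1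
    exact hinj δ _ (hbc δ) (H265.isIso_trans h2 tanGD_zero_isIso)
  · intro z
    obtain ⟨h', rfl⟩ := h1Class_surjective z
    obtain ⟨δ, hδ⟩ := hsurj (tanGD K B₀ B₁ B₀₁ K h') (tanGD_isBC_fst h')
      (tanGD_rigidifiable e h') (tanGD_deg0 h')
    refine ⟨δ, ?_⟩
    rw [ksMap_apply]
    exact (tanGD_isIso_iff_h1Class hC _ _).mp (H265.curveGD_isIso_of_isBC (hbc δ) hδ)

/-- **D3/D4, numerical form.**  In the situation of `exists_ksMap_bijective`: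
`dim W = dim Ȟ¹(unit)`. -/
theorem finrank_eq_of_universal [IsAlgClosed K] (hC : IsCurveChart K B₀ B₁ B₀₁ x y e)
    (Gu : CurveGD K B₀ B₁ B₀₁ (TrivSqZeroExt K W))
    (h0 : CurveGD.IsBC (fstA K W) Gu (unitGD K B₀ B₁ B₀₁ K))
    (hinj : ∀ (δ : W →ₗ[K] K) (G : CurveGD K B₀ B₁ B₀₁ (TrivSqZeroExt K K)),
      CurveGD.IsBC (TrivSqZeroExt.map δ) Gu G →
        G.IsIso (unitGD K B₀ B₁ B₀₁ (TrivSqZeroExt K K)) → δ = 0)
    (hsurj : ∀ G : CurveGD K B₀ B₁ B₀₁ (TrivSqZeroExt K K),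
      CurveGD.IsBC (fstA K K) G (unitGD K B₀ B₁ B₀₁ K) → G.Rigidifiable e → G.Deg0 →
        ∃ δ : W →ₗ[K] K, CurveGD.IsBC (TrivSqZeroExt.map δ) Gu G) :
    Module.finrank K W =
      Module.finrank K (GlueDatum.unit K (K ⊗[K] B₀) (K ⊗[K] B₁) (K ⊗[K] B₀₁)).H1 := by
  obtain ⟨h, -, hbij⟩ := exists_ksMap_bijective hC Gu h0 hinj hsurj
  rw [← Subspace.dual_finrank_eq (K := K) (V := W)]
  exact (LinearEquiv.ofBijective (ksMap B₀ B₁ h) hbij).finrank_eq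

end Dual

end

end Fermat.Agent.S27.H550
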