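import Fermat.Agent.S27.Dim.Spec
import Fermat.Agent.S27.H550.Tangent

/-!
# S27 / DIM, leaf TWIST (= D3): `Dim.Stmt.Twist` in the frozen shape

`tw V ξ := tanGD k B₀ B₁ B₀₁ V ξ` (`Tangent.lean`).
-/

set_option autoImplicit false

universe u

open scoped TensorProduct

namespace Fermat.Agent.S27.H550

open Fermat.Agent.S25

/-- **TWIST** (leaf of block DIM, frozen shape). -/
theorem twist (k B₀ B₁ B₀₁ : Type u) [Field k] [CommRing B₀] [CommRing B₁] [CommRing B₀₁]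
    [Algebra k B₀] [Algebra k B₁] [Algebra k B₀₁] [Algebra B₀ B₀₁] [Algebra B₁ B₀₁]
    [IsScalarTower k B₀ B₀₁] [IsScalarTower k B₁ B₀₁] : Dim.Stmt.Twist k B₀ B₁ B₀₁ := by
  intro _ x y e hC
  refine ⟨fun V _ _ _ _ ξ => tanGD k B₀ B₁ B₀₁ V ξ, ?_, ?_, ?_, ?_, ?_⟩
  · intro V _ _ _ _ ξ
    exact ⟨tanGD_rigidifiable e ξ, tanGD_deg0 ξ, tanGD_isBC_fst ξ⟩
  · intro V _ _ _ _ G G' hbc hiso
    obtain ⟨ξ, hξ⟩ := exists_isIso_tanGD G (H265.curveGD_isBC_of_isIso_right hbc hiso)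
    exact ⟨ξ, H265.isIso_symm hξ⟩
  · intro V _ _ _ _ V' _ _ _ _ δ ξ
    exact tanGD_isBC_map δ ξ
  · exact H265.curveGD_isBC_of_isIso_right (H130.unit_isBC _)
      (H265.isIso_symm tanGD_zero_isIso)
  · intro ξ ξ'
    exact tanGD_isIso_iff_h1Class hC ξ ξ'

end Fermat.Agent.S27.H550
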