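import Fermat.Agent.S25.DefsAlg

/-!
# S27 / J-DIM, algebra core, part 0: the ring `K[V] ⊗ B`

`K[V] := TrivSqZeroExt K V` is the ring of dual numbers with coefficients in the `K`-module `V`.
For a `K`-algebra `B` we decompose `K[V] ⊗ B = (K ⊗ B) ⊕ (V ⊗ B)`:

* `fstB : K[V] ⊗ B →+* K ⊗ B`, `inlB : K ⊗ B →+* K[V] ⊗ B` (ring maps),
* `jB : V ⊗ B →ₗ[K] K[V] ⊗ B`, `sndB : K[V] ⊗ B →ₗ[K] V ⊗ B` (linear maps),
* `x = inlB (fstB x) + jB (sndB x)`, `jB φ * jB ψ = 0`,
* the unit `oneAddJ φ = 1 + jB φ`.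
-/

set_option autoImplicit false
set_option linter.unusedSectionVars false

universe u

open scoped TensorProduct

namespace Fermat.Agent.S27.H550

open Fermat.Agent.S25

noncomputable section

variable (K : Type u) [Field K] (V : Type u) [AddCommGroup V] [Module K V] [Module Kᵐᵒᵖ V]
  [IsCentralScalar K V] (B : Type u) [CommRing B] [Algebra K B]

/-- The projection `K[V] → K`. -/
def fstA : TrivSqZeroExt K V →ₐ[K] K := TrivSqZeroExt.fstHom K K V

/-- The inclusion `K → K[V]`. -/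
def inlA : K →ₐ[K] TrivSqZeroExt K V := TrivSqZeroExt.inlAlgHom K K V

/-- The projection `K[V] ⊗ B → K ⊗ B`. -/
def fstB : TrivSqZeroExt K V ⊗[K] B →+* K ⊗[K] B := tensorMapLeft K (fstA K V) B

/-- The inclusion `K ⊗ B → K[V] ⊗ B`. -/
def inlB : K ⊗[K] B →+* TrivSqZeroExt K V ⊗[K] B := tensorMapLeft K (inlA K V) B

/-- The inclusion `V ⊗ B → K[V] ⊗ B` of the square zero ideal. -/
def jB : V ⊗[K] B →ₗ[K] TrivSqZeroExt K V ⊗[K] B :=
  LinearMap.rTensor B (TrivSqZeroExt.inrHom K V)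

/-- The projection `K[V] ⊗ B → V ⊗ B`. -/
def sndB : TrivSqZeroExt K V ⊗[K] B →ₗ[K] V ⊗[K] B :=
  LinearMap.rTensor B (TrivSqZeroExt.sndHom K V)

variable {K V B}

@[simp] theorem fstB_tmul (a : TrivSqZeroExt K V) (b : B) :
    fstB K V B (a ⊗ₜ[K] b) = a.fst ⊗ₜ[K] b := by
  simp [fstB, tensorMapLeft, fstA]

@[simp] theorem inlB_tmul (c : K) (b : B) :
    inlB K V B (c ⊗ₜ[K] b) = (TrivSqZeroExt.inl c : TrivSqZeroExt K V) ⊗ₜ[K] b := by
  simp [inlB, tensorMapLeft, inlA]

@[simp] theorem jB_tmul (v : V) (b : B) :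
    jB K V B (v ⊗ₜ[K] b) = (TrivSqZeroExt.inr v : TrivSqZeroExt K V) ⊗ₜ[K] b := by
  simp [jB]

@[simp] theorem sndB_tmul (a : TrivSqZeroExt K V) (b : B) :
    sndB K V B (a ⊗ₜ[K] b) = a.snd ⊗ₜ[K] b := by
  simp [sndB]

theorem fstB_inlB (z : K ⊗[K] B) : fstB K V B (inlB K V B z) = z := by
  induction z using TensorProduct.induction_on with
  | zero => simp
  | tmul c b => simp
  | add x y hx hy => rw [map_add, map_add, hx, hy]

theorem fstB_surjective : Function.Surjective (fstB K V B) :=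
  fun z => ⟨inlB K V B z, fstB_inlB z⟩

theorem fstB_jB (φ : V ⊗[K] B) : fstB K V B (jB K V B φ) = 0 := by
  induction φ using TensorProduct.induction_on with
  | zero => simp
  | tmul v b => simp
  | add x y hx hy => rw [map_add, map_add, hx, hy, add_zero]

theorem sndB_jB (φ : V ⊗[K] B) : sndB K V B (jB K V B φ) = φ := by
  induction φ using TensorProduct.induction_on with
  | zero => simp
  | tmul v b => simp
  | add x y hx hy => rw [map_add, map_add, hx, hy]

theorem jB_injective : Function.Injective (jB K V B) :=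
  Function.LeftInverse.injective (g := sndB K V B) sndB_jB

theorem eq_inlB_add_jB (x : TrivSqZeroExt K V ⊗[K] B) :
    x = inlB K V B (fstB K V B x) + jB K V B (sndB K V B x) := by
  induction x using TensorProduct.induction_on with
  | zero => simp
  | tmul a b =>
    rw [fstB_tmul, sndB_tmul, inlB_tmul, jB_tmul, ← TensorProduct.add_tmul,
      TrivSqZeroExt.inl_fst_add_inr_snd_eq]
  | add x y hx hy =>
    rw [map_add, map_add, map_add, map_add]
    nth_rewrite 1 [hx, hy]
    abel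

theorem eq_jB_of_fstB_eq_zero {x : TrivSqZeroExt K V ⊗[K] B} (hx : fstB K V B x = 0) :
    x = jB K V B (sndB K V B x) := by
  have h := eq_inlB_add_jB x
  rw [hx, map_zero, zero_add] at h
  exact h

theorem mem_ker_fstB_iff {x : TrivSqZeroExt K V ⊗[K] B} :
    x ∈ RingHom.ker (fstB K V B) ↔ ∃ φ, x = jB K V B φ := by
  constructor
  · intro hx
    exact ⟨_, eq_jB_of_fstB_eq_zero hx⟩
  · rintro ⟨φ, rfl⟩
    exact fstB_jB φ

theorem jB_mul_jB (φ ψ : V ⊗[K] B) : jB K V B φ * jB K V B ψ = 0 := by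
  induction φ using TensorProduct.induction_on with
  | zero => simp
  | tmul v b =>
    induction ψ using TensorProduct.induction_on with
    | zero => simp
    | tmul v' b' =>
      rw [jB_tmul, jB_tmul, Algebra.TensorProduct.tmul_mul_tmul, TrivSqZeroExt.inr_mul_inr,
        TensorProduct.zero_tmul]
    | add x y hx hy => rw [map_add, mul_add, hx, hy, add_zero]
  | add x y hx hy => rw [map_add, add_mul, hx, hy, add_zero]

/-- The kernel of `K[V] ⊗ B → K ⊗ B` has square zero. -/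
theorem ker_fstB_sq : RingHom.ker (fstB K V B) ^ 2 = ⊥ := by
  rw [eq_bot_iff, pow_two, Ideal.mul_le]
  intro x hx y hy
  obtain ⟨φ, rfl⟩ := mem_ker_fstB_iff.mp hx
  obtain ⟨ψ, rfl⟩ := mem_ker_fstB_iff.mp hy
  rw [jB_mul_jB]
  exact Ideal.zero_mem _

/-- Scalars from `K` commute with `jB`. -/
theorem algebraMap_mul_jB (c : K) (φ : V ⊗[K] B) :
    algebraMap K (TrivSqZeroExt K V ⊗[K] B) c * jB K V B φ = jB K V B (c • φ) := by
  rw [map_smul]
  exact (Algebra.smul_def c _).symm

variable (K V B) in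
/-- The unit `1 + jB φ` of `K[V] ⊗ B`. -/
def oneAddJ (φ : V ⊗[K] B) : (TrivSqZeroExt K V ⊗[K] B)ˣ where
  val := 1 + jB K V B φ
  inv := 1 - jB K V B φ
  val_inv := by
    have := jB_mul_jB φ φ
    linear_combination -this
  inv_val := by
    have := jB_mul_jB φ φ
    linear_combination -this

@[simp] theorem oneAddJ_val (φ : V ⊗[K] B) :
    ((oneAddJ K V B φ : (TrivSqZeroExt K V ⊗[K] B)ˣ) : TrivSqZeroExt K V ⊗[K] B) =
      1 + jB K V B φ := rfl

@[simp] theorem fstB_oneAddJ (φ : V ⊗[K] B) :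
    fstB K V B (oneAddJ K V B φ : (TrivSqZeroExt K V ⊗[K] B)ˣ) = 1 := by
  rw [oneAddJ_val, map_add, map_one, fstB_jB, add_zero]

/-- An element congruent to `1` modulo the square zero ideal is of the form `1 + jB φ`. -/
theorem exists_eq_oneAddJ {c : TrivSqZeroExt K V ⊗[K] B} (hc : fstB K V B c = 1) :
    ∃ φ, c = (oneAddJ K V B φ : (TrivSqZeroExt K V ⊗[K] B)ˣ) := by
  have h : fstB K V B (c - 1) = 0 := by rw [map_sub, hc, map_one, sub_self]
  refine ⟨sndB K V B (c - 1), ?_⟩
  rw [oneAddJ_val, ← eq_jB_of_fstB_eq_zero h]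
  ring

section Naturality

variable {B' : Type u} [CommRing B'] [Algebra K B'] [Algebra B B'] [IsScalarTower K B B']

/-- The map `V ⊗ B → V ⊗ B'` induced by `B → B'`. -/
def iotaV (V : Type u) [AddCommGroup V] [Module K V] (B B' : Type u) [CommRing B] [Algebra K B]
    [CommRing B'] [Algebra K B'] [Algebra B B'] [IsScalarTower K B B'] :
    V ⊗[K] B →ₗ[K] V ⊗[K] B' :=
  LinearMap.lTensor V (IsScalarTower.toAlgHom K B B').toLinearMap

@[simp] theorem iotaV_tmul (v : V) (b : B) :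
    iotaV V B B' (v ⊗ₜ[K] b) = v ⊗ₜ[K] algebraMap B B' b := by
  simp [iotaV]

theorem algebraMap_tmul' (a : TrivSqZeroExt K V) (b : B) :
    algebraMap (TrivSqZeroExt K V ⊗[K] B) (TrivSqZeroExt K V ⊗[K] B') (a ⊗ₜ[K] b) =
      a ⊗ₜ[K] algebraMap B B' b := by
  simp [RingHom.algebraMap_toAlgebra, tensorMapRight]

theorem algebraMap_jB (φ : V ⊗[K] B) :
    algebraMap (TrivSqZeroExt K V ⊗[K] B) (TrivSqZeroExt K V ⊗[K] B') (jB K V B φ) =
      jB K V B' (iotaV V B B' φ) := by
  induction φ using TensorProduct.induction_on with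
  | zero => simp
  | tmul v b => rw [jB_tmul, algebraMap_tmul', iotaV_tmul, jB_tmul]
  | add x y hx hy => rw [map_add, map_add, map_add, map_add, hx, hy]

theorem fstB_algebraMap (x : TrivSqZeroExt K V ⊗[K] B) :
    fstB K V B' (algebraMap (TrivSqZeroExt K V ⊗[K] B) (TrivSqZeroExt K V ⊗[K] B') x) =
      algebraMap (K ⊗[K] B) (K ⊗[K] B') (fstB K V B x) := by
  induction x using TensorProduct.induction_on with
  | zero => simp
  | tmul a b =>
    rw [algebraMap_tmul', fstB_tmul, fstB_tmul]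
    simp [RingHom.algebraMap_toAlgebra, tensorMapRight]
  | add x y hx hy => rw [map_add, map_add, map_add, map_add, hx, hy]

theorem sndB_algebraMap (x : TrivSqZeroExt K V ⊗[K] B) :
    sndB K V B' (algebraMap (TrivSqZeroExt K V ⊗[K] B) (TrivSqZeroExt K V ⊗[K] B') x) =
      iotaV V B B' (sndB K V B x) := by
  induction x using TensorProduct.induction_on with
  | zero => simp
  | tmul a b => rw [algebraMap_tmul', sndB_tmul, sndB_tmul, iotaV_tmul]
  | add x y hx hy => rw [map_add, map_add, map_add, map_add, hx, hy]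

end Naturality

section Functoriality

variable {V' : Type u} [AddCommGroup V'] [Module K V'] [Module Kᵐᵒᵖ V'] [IsCentralScalar K V']

/-- `K[u] ⊗ B` sends `jB φ` to `jB ((u ⊗ 1) φ)`. -/
theorem tensorMapLeft_map_jB (u : V →ₗ[K] V') (φ : V ⊗[K] B) :
    tensorMapLeft K (TrivSqZeroExt.map u) B (jB K V B φ) =
      jB K V' B (LinearMap.rTensor B u φ) := by
  induction φ using TensorProduct.induction_on with
  | zero => simp
  | tmul v b => simp [tensorMapLeft]
  | add x y hx hy => rw [map_add, map_add, map_add, map_add, hx, hy]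

theorem tensorMapLeft_map_oneAddJ (u : V →ₗ[K] V') (φ : V ⊗[K] B) :
    tensorMapLeft K (TrivSqZeroExt.map u) B
        (oneAddJ K V B φ : (TrivSqZeroExt K V ⊗[K] B)ˣ) =
      (oneAddJ K V' B (LinearMap.rTensor B u φ) : (TrivSqZeroExt K V' ⊗[K] B)ˣ) := by
  rw [oneAddJ_val, oneAddJ_val, map_add, map_one, tensorMapLeft_map_jB]

end Functoriality

end

end Fermat.Agent.S27.H550
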